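/-
S41 / [PD-COMM] (helper67): THE ORIENTATION COCYCLE on `P¹(K)`, `K` an ordered field, in the
model-free form "nonzero vectors of `K × K` up to scaling".

`orV u v w := sign (D u v * D v w * D w u)` with `D` the 2×2 determinant.  It is
* invariant under rescaling any argument by a nonzero scalar (so it lives on `P¹(K)`),
* alternating, and `0` as soon as two arguments are proportional,
* invariant under every matrix of POSITIVE determinant,
* equal to `1` on every Farey triangle `(g ∞, g 0, g 1)`, `g ∈ SL₂`,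
* CLOSED: `orV b c d - orV a c d + orV a b d - orV a b c = 0` for pairwise non-proportional
  `a b c d` (the remaining 4-tuples follow from alternation).

Used to normalise the trace functional in `TraceUnique.lean` (`dartSum Γ or = [G : Γ]`).
-/
import Mathlib

set_option autoImplicit false
set_option linter.unusedSectionVars false

namespace Fermat.Agent.S41.PDComm67

variable {K : Type*} [Field K] [LinearOrder K] [IsStrictOrderedRing K]

/-- the determinant of two vectors of `K × K` -/
def D (v w : K × K) : K := v.1 * w.2 - v.2 * w.1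

theorem D_swap (v w : K × K) : D w v = - D v w := by unfold D; ring

theorem D_self (v : K × K) : D v v = 0 := by unfold D; ring

theorem D_smul_left (c : K) (v w : K × K) : D (c • v) w = c * D v w := by
  unfold D; simp only [Prod.smul_fst, Prod.smul_snd, smul_eq_mul]; ring

theorem D_smul_right (c : K) (v w : K × K) : D v (c • w) = c * D v w := by
  unfold D; simp only [Prod.smul_fst, Prod.smul_snd, smul_eq_mul]; ring

/-- the Plücker relation -/
theorem plucker (a b c d : K × K) : D a b * D c d - D a c * D b d + D a d * D b c = 0 := by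
  unfold D; ring

/-- the orientation of a triple of vectors, as an integer in `{-1, 0, 1}` -/
def orV (u v w : K × K) : ℤ := ((SignType.sign (D u v * D v w * D w u) : SignType) : ℤ)

theorem orV_eq (u v w : K × K) :
    orV u v w = - ((SignType.sign (D u v) : SignType) : ℤ) * (SignType.sign (D v w) : SignType)
      * (SignType.sign (D u w) : SignType) := by
  unfold orV
  rw [D_swap u w, sign_mul, sign_mul, Left.sign_neg]
  push_cast
  ring

/-- cyclic invariance -/
theorem orV_rotate (u v w : K × K) : orV v w u = orV u v w := by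
  unfold orV
  congr 2
  ring

/-- swapping the first two arguments changes the sign -/
theorem orV_swap₁₂ (u v w : K × K) : orV v u w = - orV u v w := by
  unfold orV
  have h : D v u * D u w * D w v = - (D u v * D v w * D w u) := by
    rw [D_swap u v, D_swap w u, D_swap v w]; ring
  rw [h, Left.sign_neg]
  push_cast
  ring

/-- swapping the last two arguments changes the sign -/
theorem orV_swap₂₃ (u v w : K × K) : orV u w v = - orV u v w := by
  rw [← orV_rotate u w v, orV_swap₁₂, orV_rotate]

/-- swapping the outer arguments changes the sign -/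
theorem orV_swap₁₃ (u v w : K × K) : orV w v u = - orV u v w := by
  rw [← orV_rotate w v u, orV_swap₂₃, ← orV_rotate u v w]

theorem orV_eq_zero_of_D_eq_zero {u v : K × K} (h : D u v = 0) (w : K × K) : orV u v w = 0 := by
  unfold orV
  rw [h, zero_mul, zero_mul, sign_zero]
  rfl

theorem orV_self_left (u w : K × K) : orV u u w = 0 := orV_eq_zero_of_D_eq_zero (D_self u) w

/-- rescaling the first argument -/
theorem orV_smul₁ {c : K} (hc : c ≠ 0) (u v w : K × K) : orV (c • u) v w = orV u v w := by
  unfold orV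
  have h : D (c • u) v * D v w * D w (c • u) = c ^ 2 * (D u v * D v w * D w u) := by
    rw [D_smul_left, D_smul_right]; ring
  rw [h, sign_mul, sign_pos (pow_pos_of_ne hc), one_mul]
where
  pow_pos_of_ne {c : K} (hc : c ≠ 0) : 0 < c ^ 2 := by positivity

theorem orV_smul₂ {c : K} (hc : c ≠ 0) (u v w : K × K) : orV u (c • v) w = orV u v w := by
  rw [← orV_rotate, orV_smul₁ hc, orV_rotate]

theorem orV_smul₃ {c : K} (hc : c ≠ 0) (u v w : K × K) : orV u v (c • w) = orV u v w := by
  rw [orV_rotate, orV_smul₁ hc, ← orV_rotate]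

/-! ### closedness -/

/-- the finite check behind the cocycle identity: six nonzero signs constrained by the Plücker
relation -/
theorem sign_comb : ∀ s₁ s₂ s₃ s₄ s₅ s₆ : SignType,
    s₁ ≠ 0 → s₂ ≠ 0 → s₃ ≠ 0 → s₄ ≠ 0 → s₅ ≠ 0 → s₆ ≠ 0 →
    ¬ (s₁ * s₆ = 1 ∧ s₂ * s₅ = -1 ∧ s₃ * s₄ = 1) →
    ¬ (s₁ * s₆ = -1 ∧ s₂ * s₅ = 1 ∧ s₃ * s₄ = -1) →
    - ((s₄ : SignType) : ℤ) * s₆ * s₅ - (- ((s₂ : SignType) : ℤ) * s₆ * s₃)
      + (- ((s₁ : SignType) : ℤ) * s₅ * s₃) - (- ((s₁ : SignType) : ℤ) * s₄ * s₂) = 0 := by
  decide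

/-- **the orientation cocycle is closed** on pairwise non-proportional vectors -/
theorem orV_closed (a b c d : K × K) (hab : D a b ≠ 0) (hac : D a c ≠ 0) (had : D a d ≠ 0)
    (hbc : D b c ≠ 0) (hbd : D b d ≠ 0) (hcd : D c d ≠ 0) :
    orV b c d - orV a c d + orV a b d - orV a b c = 0 := by
  rw [orV_eq b c d, orV_eq a c d, orV_eq a b d, orV_eq a b c]
  have hP := plucker a b c d
  have hs : ∀ {x : K}, x ≠ 0 → SignType.sign x ≠ 0 := fun hx => by
    rwa [Ne, sign_eq_zero_iff]
  refine sign_comb _ _ _ _ _ _ (hs hab) (hs hac) (hs had) (hs hbc) (hs hbd) (hs hcd) ?_ ?_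
  · rintro ⟨h1, h2, h3⟩
    rw [← sign_mul, sign_eq_one_iff] at h1 h3
    rw [← sign_mul, sign_eq_neg_one_iff] at h2
    linarith
  · rintro ⟨h1, h2, h3⟩
    rw [← sign_mul, sign_eq_neg_one_iff] at h1 h3
    rw [← sign_mul, sign_eq_one_iff] at h2
    linarith

/-! ### matrices of positive determinant -/

/-- a 2×2 matrix acting on `K × K` -/
def mulVec2 (g : Matrix (Fin 2) (Fin 2) K) (v : K × K) : K × K :=
  (g 0 0 * v.1 + g 0 1 * v.2, g 1 0 * v.1 + g 1 1 * v.2)

theorem D_mulVec2 (g : Matrix (Fin 2) (Fin 2) K) (u v : K × K) :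
    D (mulVec2 g u) (mulVec2 g v) = g.det * D u v := by
  unfold D mulVec2
  rw [Matrix.det_fin_two]
  ring

/-- **the orientation is invariant under matrices of positive determinant** -/
theorem orV_mulVec2 (g : Matrix (Fin 2) (Fin 2) K) (hg : 0 < g.det) (u v w : K × K) :
    orV (mulVec2 g u) (mulVec2 g v) (mulVec2 g w) = orV u v w := by
  unfold orV
  rw [D_mulVec2, D_mulVec2, D_mulVec2]
  have h : g.det * D u v * (g.det * D v w) * (g.det * D w u) =
      g.det ^ 3 * (D u v * D v w * D w u) := by ring
  rw [h, sign_mul, sign_pos (pow_pos hg 3), one_mul]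

/-- **every Farey triangle `(g ∞, g 0, g 1)` is positively oriented** (`∞ = (1,0)`, `0 = (0,1)`,
`1 = (1,1)`) -/
theorem orV_farey (g : Matrix (Fin 2) (Fin 2) K) (hg : 0 < g.det) :
    orV (mulVec2 g (1, 0)) (mulVec2 g (0, 1)) (mulVec2 g (1, 1)) = 1 := by
  rw [orV_mulVec2 g hg]
  unfold orV D
  norm_num

end Fermat.Agent.S41.PDComm67
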